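import Fermat.Agent.FormSystems.Asymptotic
import Mathlib.Analysis.PSeries
import Mathlib.Analysis.Real.Pi.Bounds
import Mathlib.NumberTheory.ArithmeticFunction.Moebius
import Mathlib.NumberTheory.ZetaValues

/-!
# Primitive zeros

By Möbius inversion over the greatest common divisor of the coordinates an asymptotic formula
`c P ^ E + O (P ^ (E - δ))`, `E ≥ 2`, for the common zeros of forms in the cube of side `P` gives
one for the primitive common zeros, with the constant `c ∑ μ d / d ^ E > 0`.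
-/

set_option autoImplicit false

noncomputable section

namespace FA.SmoothIntersections

open Finset MvPolynomial FA.CubicForms FA.FormsManyVariables FA.FormSystems
open scoped ArithmeticFunction.Moebius ArithmeticFunction.zeta Real

variable {n r : ℕ} (F : Fin r → MvPolynomial (Fin n) ℤ)

/-- The nonzero common zeros in the cube. -/
def nonzeroZeros (P : ℕ) : Finset (Fin n → ℤ) :=
  (cbox n P).filter fun x => (∀ i, eval x (F i) = 0) ∧ x ≠ 0

/-- The primitive common zeros in the cube. -/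
def countPrimitiveZeros (P : ℕ) : ℕ :=
  ((cbox n P).filter fun x => (∀ i, eval x (F i) = 0) ∧ univ.gcd x = 1).card

theorem card_nonzeroZeros {m : ℕ} (hF : ∀ i, (F i).IsHomogeneous (m + 2)) (P : ℕ) :
    (nonzeroZeros F P).card + 1 = countSysReps F 0 P := by
  classical
  have h0 : (0 : Fin n → ℤ) ∈ (cbox n P).filter fun x => ∀ i, eval x (F i) = 0 := by
    refine mem_filter.2 ⟨mem_cbox.2 fun _ => by simp, fun i => ?_⟩
    have h := aeval_smul (F i) (hF i) (0 : ℤ) (0 : Fin n → ℤ)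
    rwa [zero_smul, zero_pow (by omega), zero_mul, aeval_eq_eval] at h
  have e : nonzeroZeros F P = ((cbox n P).filter fun x => ∀ i, eval x (F i) = 0).erase 0 := by
    ext x
    simp only [nonzeroZeros, mem_erase, mem_filter, ne_eq]
    tauto
  rw [e, card_erase_add_one h0]
  rfl

theorem card_filter_dvd {m : ℕ} (hF : ∀ i, (F i).IsHomogeneous (m + 2)) (P d : ℕ) (hd : 1 ≤ d) :
    ((nonzeroZeros F P).filter fun x => ∀ l, (d : ℤ) ∣ x l).card =
      (nonzeroZeros F (P / d)).card := by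
  classical
  have hd0 : (d : ℤ) ≠ 0 := by exact_mod_cast (show d ≠ 0 by omega)
  refine (card_nbij' (fun y : Fin n → ℤ => (d : ℤ) • y)
    (fun (x : Fin n → ℤ) l => x l / (d : ℤ)) ?_ ?_ ?_ ?_).symm
  · intro y hy
    simp only [nonzeroZeros, mem_coe, mem_filter, mem_cbox] at hy ⊢
    refine ⟨⟨fun l => ?_, fun i => ?_, smul_ne_zero hd0 hy.2.2⟩, fun l => by simp⟩
    · rw [Pi.smul_apply, smul_eq_mul, abs_mul, Nat.abs_cast]
      calc (d : ℤ) * |y l| ≤ d * (P / d : ℕ) := mul_le_mul_of_nonneg_left (hy.1 l) (by positivity)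
        _ ≤ (P : ℤ) := by exact_mod_cast Nat.mul_div_le P d
    · have h := aeval_smul (F i) (hF i) (d : ℤ) y
      rw [aeval_eq_eval, aeval_eq_eval] at h
      rw [h, hy.2.1 i, mul_zero]
  · intro x hx
    simp only [nonzeroZeros, mem_coe, mem_filter, mem_cbox] at hx ⊢
    obtain ⟨⟨hb, hz, hne⟩, hdvd⟩ := hx
    have ex : x = (d : ℤ) • fun l => x l / d := funext fun l => by
      rw [Pi.smul_apply, smul_eq_mul, Int.mul_ediv_cancel' (hdvd l)]
    refine ⟨fun l => ?_, fun i => ?_, fun h => hne (by rw [ex, h, smul_zero])⟩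
    · rw [Int.natCast_div, Int.le_ediv_iff_mul_le (by omega)]
      refine le_of_eq_of_le ?_ (hb l)
      conv_rhs => rw [← Int.ediv_mul_cancel (hdvd l), abs_mul, Nat.abs_cast]
    · have h := aeval_smul (F i) (hF i) (d : ℤ) fun l => x l / d
      rw [← ex, aeval_eq_eval, aeval_eq_eval, hz i] at h
      exact (mul_eq_zero.1 h.symm).resolve_left (pow_ne_zero _ hd0)
  · exact fun y _ => funext fun l => Int.mul_ediv_cancel_left (y l) hd0
  · intro x hx
    rw [mem_coe, mem_filter] at hx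
    exact funext fun l => Int.mul_ediv_cancel' (hx.2 l)

/-- **Möbius inversion.** -/
theorem countPrimitiveZeros_eq {m : ℕ} (hF : ∀ i, (F i).IsHomogeneous (m + 2)) (P : ℕ) :
    (countPrimitiveZeros F P : ℤ) = ∑ d ∈ Icc 1 P, μ d * ((nonzeroZeros F (P / d)).card : ℤ) := by
  classical
  have e : ∑ d ∈ Icc 1 P, μ d * ((nonzeroZeros F (P / d)).card : ℤ) =
      ∑ x ∈ nonzeroZeros F P, if univ.gcd x = 1 then 1 else 0 := by
    rw [sum_congr rfl fun d hd => by
      rw [← card_filter_dvd F hF P d (mem_Icc.1 hd).1, card_filter, Nat.cast_sum, mul_sum],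
      sum_comm]
    refine sum_congr rfl fun x hx => ?_
    obtain ⟨g, hg⟩ : ∃ g : ℕ, g = (univ.gcd x).natAbs := ⟨_, rfl⟩
    simp only [nonzeroZeros, mem_filter, mem_cbox] at hx
    obtain ⟨l, hl'⟩ := Function.ne_iff.1 hx.2.2
    have hl : x l ≠ 0 := by simpa using hl'
    have hgP : g ∣ (x l).natAbs := hg ▸ Int.natAbs_dvd_natAbs.2 (gcd_dvd (mem_univ l))
    have hxl : (x l).natAbs ≠ 0 := Int.natAbs_ne_zero.2 hl
    have hg0 : g ≠ 0 := fun h => hxl (by simpa [h] using hgP)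
    have hdiv : g.divisors = (Icc 1 P).filter fun d : ℕ => ∀ l, (d : ℤ) ∣ x l := by
      ext d
      have hiff : d ∣ g ↔ ∀ l, (d : ℤ) ∣ x l := by
        rw [hg, ← Int.natCast_dvd, Finset.dvd_gcd_iff]
        simp
      rw [Nat.mem_divisors, mem_filter, mem_Icc, hiff]
      refine ⟨fun h => ⟨⟨Nat.pos_of_ne_zero fun h0 => hl ?_, ?_⟩, h.1⟩, fun h => ⟨h.2, hg0⟩⟩
      · simpa [h0] using h.1 l
      · have := Nat.le_of_dvd (Nat.pos_of_ne_zero hxl) ((hiff.2 h.1).trans hgP)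
        have := hx.1 l
        rw [Int.abs_eq_natAbs] at this
        omega
    have hone : univ.gcd x = 1 ↔ g = 1 := by
      rw [hg]
      refine ⟨fun h => by simp [h], fun h => ?_⟩
      rw [← normalize_gcd (f := x), ← Int.abs_eq_normalize, Int.abs_eq_natAbs, h, Nat.cast_one]
    have h1 : ∑ d ∈ g.divisors, μ d = if g = 1 then 1 else 0 := by
      rw [← ArithmeticFunction.coe_mul_zeta_apply, ArithmeticFunction.moebius_mul_coe_zeta,
        ArithmeticFunction.one_apply]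
    rw [if_congr hone rfl rfl, ← h1, hdiv, sum_filter]
    exact sum_congr rfl fun d _ => by split_ifs <;> simp
  rw [e, ← sum_filter, sum_const, nsmul_one, countPrimitiveZeros, nonzeroZeros, filter_filter]
  refine congrArg Nat.cast (congrArg card (filter_congr fun x _ => ?_))
  refine ⟨fun h => ⟨⟨h.1, fun h0 => ?_⟩, h.2⟩, fun h => ⟨h.1.1, h.2⟩⟩
  have hz : univ.gcd (0 : Fin n → ℤ) = 0 := Finset.gcd_eq_zero_iff.2 fun _ _ => rfl
  rw [h0, hz] at h
  exact zero_ne_one h.2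

theorem moebius_sum_pos {E : ℕ} (hE : 2 ≤ E) :
    Summable (fun d : ℕ => (μ d : ℝ) / (d : ℝ) ^ E) ∧ 0 < ∑' d : ℕ, (μ d : ℝ) / (d : ℝ) ^ E := by
  have hb : ∀ d : ℕ, |(μ d : ℝ)| ≤ 1 := fun d => by
    exact_mod_cast ArithmeticFunction.abs_moebius_le_one
  have hle : ∀ d : ℕ, 1 ≤ d → (1 : ℝ) / (d : ℝ) ^ E ≤ 1 / (d : ℝ) ^ 2 := fun d hd =>
    one_div_le_one_div_of_le (by positivity) (pow_le_pow_right₀ (by exact_mod_cast hd) hE)
  have hsum : Summable fun d : ℕ => (μ d : ℝ) / (d : ℝ) ^ E := by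
    refine Summable.of_norm_bounded hasSum_zeta_two.summable fun d => ?_
    rcases Nat.eq_zero_or_pos d with rfl | hd
    · simp
    · rw [Real.norm_eq_abs, abs_div,
        abs_of_pos (show (0 : ℝ) < (d : ℝ) ^ E from pow_pos (Nat.cast_pos.2 hd) E)]
      exact le_trans (div_le_div_of_nonneg_right (hb d) (by positivity)) (hle d hd)
  refine ⟨hsum, ?_⟩
  obtain ⟨h, hh⟩ : ∃ h : ℕ → ℝ,
      h = fun d : ℕ => (if d = 1 then (2 : ℝ) else 0) - 1 / (d : ℝ) ^ 2 := ⟨_, rfl⟩
  have hhs : HasSum h (2 - π ^ 2 / 6) := hh ▸ (hasSum_ite_eq 1 (2 : ℝ)).sub hasSum_zeta_two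
  refine lt_of_lt_of_le ?_ (hasSum_le (fun d => ?_) hhs hsum.hasSum)
  · nlinarith [Real.pi_lt_d2, Real.pi_pos]
  · rw [hh]
    simp only
    rcases eq_or_ne d 1 with rfl | hd1
    · norm_num
    rw [if_neg hd1, zero_sub]
    rcases Nat.eq_zero_or_pos d with rfl | hd
    · simp
    · refine le_trans (neg_le_neg (hle d hd)) ?_
      rw [← neg_div]
      exact div_le_div_of_nonneg_right (abs_le.1 (hb d)).1 (by positivity)

theorem abs_floor_pow_sub_le {E d P : ℕ} (hd : 1 ≤ d) :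
    |(((P / d : ℕ) : ℝ)) ^ E - ((P : ℝ) / d) ^ E| ≤ E * ((P : ℝ) / d) ^ (E - 1) := by
  have hd0 : (0 : ℝ) < d := by exact_mod_cast hd
  have h1 : ((P / d : ℕ) : ℝ) ≤ (P : ℝ) / d := Nat.cast_div_le
  have h2 : (P : ℝ) / d ≤ ((P / d : ℕ) : ℝ) + 1 := by
    rw [div_le_iff₀ hd0]
    have : P ≤ (P / d + 1) * d := by
      rw [add_mul, one_mul, mul_comm]
      exact (Nat.div_add_mod P d).symm.le.trans (Nat.add_le_add_left (Nat.mod_lt P hd).le _)
    exact_mod_cast this
  refine (abs_pow_sub_pow_le _ _ E).trans ?_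
  rw [max_eq_right (by rw [abs_of_nonneg (by positivity), abs_of_nonneg (by positivity)]; exact h1),
    abs_of_nonneg (show (0 : ℝ) ≤ (P : ℝ) / d by positivity)]
  refine mul_le_mul_of_nonneg_right (mul_le_of_le_one_left (Nat.cast_nonneg _) ?_) (by positivity)
  rw [abs_le]
  constructor <;> linarith

/-- **The asymptotic formula for primitive zeros.** -/
theorem exists_primitive_asymptotic {m E : ℕ} (hF : ∀ i, (F i).IsHomogeneous (m + 2)) (hE : 2 ≤ E)
    {c δ C : ℝ} (hc : 0 < c) (hδ : 0 < δ) (h : ∀ P : ℕ, 1 ≤ P →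
      |(countSysReps F 0 P : ℝ) - c * (P : ℝ) ^ E| ≤ C * (P : ℝ) ^ ((E : ℝ) - δ)) :
    ∃ c' δ' C' : ℝ, 0 < c' ∧ 0 < δ' ∧ ∀ P : ℕ, 1 ≤ P →
      |(countPrimitiveZeros F P : ℝ) - c' * (P : ℝ) ^ E| ≤ C' * (P : ℝ) ^ ((E : ℝ) - δ') := by
  obtain ⟨hμs, hμpos⟩ := moebius_sum_pos hE
  obtain ⟨η, hη⟩ : ∃ η : ℝ, η = min δ (1 / 2) := ⟨_, rfl⟩
  have hη0 : 0 < η := hη ▸ lt_min hδ (by norm_num)
  have hη1 : η ≤ 1 / 2 := hη ▸ min_le_right _ _
  have hE2 : (2 : ℝ) ≤ E := by exact_mod_cast hE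
  obtain ⟨a, ha⟩ : ∃ a : ℝ, a = (E : ℝ) - η := ⟨_, rfl⟩
  have ha1 : 1 < a := by rw [ha]; linarith
  obtain ⟨K, hK⟩ : ∃ K : ℝ, K = max C 0 + 1 + c * E := ⟨_, rfl⟩
  have hK0 : 0 ≤ K := hK ▸ by positivity
  refine ⟨c * ∑' d : ℕ, (μ d : ℝ) / (d : ℝ) ^ E, η, K * ∑' d : ℕ, 1 / (d : ℝ) ^ a,
    mul_pos hc hμpos, hη0, fun P hP => ?_⟩
  rw [← ha]
  have hP1 : (1 : ℝ) ≤ P := by exact_mod_cast hP
  obtain ⟨f, hf⟩ : ∃ f : ℕ → ℝ,
      f = fun d => (μ d : ℝ) * ((nonzeroZeros F (P / d)).card : ℝ) := ⟨_, rfl⟩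
  have hout : ∀ d ∉ Icc 1 P, f d = 0 := fun d hd => by
    rw [mem_Icc, not_and_or, not_le, not_le] at hd
    rcases hd with hd | hd
    · simp [hf, show d = 0 by omega]
    · have e : (nonzeroZeros F (P / d)) = ∅ := by
        rw [Nat.div_eq_of_lt hd]
        refine filter_eq_empty_iff.2 fun x hx hx' => hx'.2 (funext fun l => ?_)
        have := mem_cbox.1 hx l
        simpa using this
      simp [hf, e]
  have hprim : (countPrimitiveZeros F P : ℝ) = ∑' d, f d := by
    rw [tsum_eq_sum hout]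
    have e := congrArg (fun x : ℤ => (x : ℝ)) (countPrimitiveZeros_eq F hF P)
    push_cast at e
    rw [e, hf]
  have hfs : Summable f := summable_of_ne_finset_zero hout
  obtain ⟨g, hg⟩ : ∃ g : ℕ → ℝ, g = fun d => c * (P : ℝ) ^ E * ((μ d : ℝ) / (d : ℝ) ^ E) :=
    ⟨_, rfl⟩
  have hgs : Summable g := hg ▸ hμs.mul_left _
  have hbound : ∀ d : ℕ, |f d - g d| ≤ K * (P : ℝ) ^ a * (1 / (d : ℝ) ^ a) := by
    intro d
    rcases Nat.eq_zero_or_pos d with rfl | hd
    · simp only [hf, hg, ArithmeticFunction.map_zero, Int.cast_zero, zero_mul, zero_div, mul_zero,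
        sub_zero, abs_zero]
      positivity
    have hd0 : (0 : ℝ) < d := by exact_mod_cast hd
    obtain ⟨X, hX⟩ : ∃ X : ℝ, X = (P : ℝ) / d := ⟨_, rfl⟩
    have hX0 : 0 < X := hX ▸ div_pos (by linarith) hd0
    have erhs : K * (P : ℝ) ^ a * (1 / (d : ℝ) ^ a) = K * X ^ a := by
      rw [hX, Real.div_rpow (by linarith) hd0.le]; ring
    have elhs : f d - g d = (μ d : ℝ) * (((nonzeroZeros F (P / d)).card : ℝ) - c * X ^ E) := by
      rw [hf, hg, hX, div_pow]; ring
    rw [erhs, elhs, abs_mul]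
    refine le_trans (mul_le_of_le_one_left (abs_nonneg _)
      (by exact_mod_cast ArithmeticFunction.abs_moebius_le_one)) ?_
    rcases Nat.lt_or_ge P d with hPd | hPd
    · have hX1 : X ≤ 1 := by
        rw [hX, div_le_one hd0]; exact_mod_cast hPd.le
      have h0 : ((nonzeroZeros F (P / d)).card : ℝ) = 0 := by
        have := hout d (by simp [mem_Icc, not_le.2 hPd])
        have hz : (nonzeroZeros F (P / d)) = ∅ := by
          rw [Nat.div_eq_of_lt hPd]
          refine filter_eq_empty_iff.2 fun x hx hx' => hx'.2 (funext fun l => ?_)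
          have := mem_cbox.1 hx l
          simpa using this
        simp [hz]
      rw [h0, zero_sub, abs_neg, abs_of_nonneg (by positivity), ← Real.rpow_natCast]
      refine mul_le_mul ?_ (Real.rpow_le_rpow_of_exponent_ge hX0 hX1 (by rw [ha]; linarith))
        (by positivity) hK0
      rw [hK]
      nlinarith [le_max_right C 0]
    · obtain ⟨q, hq⟩ : ∃ q : ℕ, q = P / d := ⟨_, rfl⟩
      have hq1 : 1 ≤ q := hq ▸ (Nat.le_div_iff_mul_le hd).2 (by omega)
      have hX1 : 1 ≤ X := by rw [hX, le_div_iff₀ hd0, one_mul]; exact_mod_cast hPd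
      have hqX : (q : ℝ) ≤ X := by rw [hq, hX]; exact Nat.cast_div_le
      have h1 : |(countSysReps F 0 q : ℝ) - c * (q : ℝ) ^ E| ≤ max C 0 * X ^ a := by
        refine (h q hq1).trans (mul_le_mul (le_max_left _ _) ?_ (by positivity) (le_max_right _ _))
        refine le_trans (Real.rpow_le_rpow_of_exponent_le (by exact_mod_cast hq1) ?_)
          (Real.rpow_le_rpow (Nat.cast_nonneg _) hqX (by linarith))
        rw [ha, hη]
        linarith [min_le_left δ (1 / 2)]
      have h2 : |(q : ℝ) ^ E - X ^ E| ≤ (E : ℝ) * X ^ a := by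
        rw [hq, hX]
        refine (abs_floor_pow_sub_le hd).trans (mul_le_mul_of_nonneg_left ?_ (by positivity))
        rw [← hX, ← Real.rpow_natCast, Nat.cast_sub (by omega : 1 ≤ E)]
        exact Real.rpow_le_rpow_of_exponent_le hX1 (by rw [ha]; push_cast; linarith)
      have hcard : ((nonzeroZeros F q).card : ℝ) = (countSysReps F 0 q : ℝ) - 1 := by
        rw [← card_nonzeroZeros F hF q]; push_cast; ring
      have h3 : (1 : ℝ) ≤ X ^ a := Real.one_le_rpow hX1 (by linarith)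
      rw [← hq, hcard, hK,
        show (countSysReps F 0 q : ℝ) - 1 - c * X ^ E =
          ((countSysReps F 0 q : ℝ) - c * (q : ℝ) ^ E) + c * ((q : ℝ) ^ E - X ^ E) - 1 by ring]
      have h4 : |c * ((q : ℝ) ^ E - X ^ E)| ≤ c * (E * X ^ a) := by
        rw [abs_mul, abs_of_pos hc]
        exact mul_le_mul_of_nonneg_left h2 hc.le
      rw [abs_le] at h1 h4 ⊢
      constructor <;> linarith [h1.1, h1.2, h4.1, h4.2]
  have hza : Summable fun d : ℕ => 1 / (d : ℝ) ^ a := Real.summable_one_div_nat_rpow.2 ha1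
  have hg' : c * (∑' d : ℕ, (μ d : ℝ) / (d : ℝ) ^ E) * (P : ℝ) ^ E = ∑' d, g d := by
    rw [hg, tsum_mul_left]; ring
  rw [hprim, hg', ← hfs.tsum_sub hgs, ← Real.norm_eq_abs]
  refine le_trans (tsum_of_norm_bounded (hza.mul_left (K * (P : ℝ) ^ a)).hasSum hbound) ?_
  rw [tsum_mul_left]
  exact le_of_eq (by ring)

end FA.SmoothIntersections
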