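import Fermat.Agent.FormSystems.Hasse
import Mathlib.Algebra.Polynomial.Roots
import Mathlib.Analysis.Complex.Polynomial.Basic

/-!
# The Jacobian locus of a smooth intersection

A projective algebraic set missing the hypersurface `G = 0` is finite, so an integer linear form
avoids it. Hence `r` forms with no common zero but the origin on an algebraic set can be replaced
by `r` integer linear forms: the locus where the Jacobian of a smooth intersection of `r` forms
has rank less than `r` has dimension at most `r`.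
-/

set_option autoImplicit false

noncomputable section

namespace FA.SmoothIntersections

open Finset MvPolynomial FA.FormsManyVariables FA.FormSystems

variable {n : ℕ}

/-- The points of `G = 1` on an algebraic set missing `G = 0` are finitely many. -/
theorem finite_normalised_zeros {J : Type*} [Fintype J] {I : J → MvPolynomial (Fin n) ℂ}
    {e : J → ℕ} (hI : ∀ j, (I j).IsHomogeneous (e j)) (he : ∀ j, 1 ≤ e j)
    {G : MvPolynomial (Fin n) ℂ} {g : ℕ} (hG : G.IsHomogeneous g) (hg : 1 ≤ g)
    (h0 : ∀ z, (∀ j, eval z (I j) = 0) → eval z G = 0 → z = 0) :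
    {z : Fin n → ℂ | (∀ j, eval z (I j) = 0) ∧ eval z G = 1}.Finite := by
  classical
  obtain ⟨B, hB⟩ := exists_card_zeros_le (Sum.elim I fun _ : Unit => G)
    (Sum.elim e fun _ => g) (by rintro (j | _) <;> simp [hI, hG])
    fun z hz => h0 z (fun j => hz (.inl j)) (hz (.inr ()))
  by_contra hinf
  obtain ⟨S, hS, hcard⟩ := Set.Infinite.exists_subset_card_eq hinf (B + 1)
  have := hB (Sum.elim I fun _ => G - 1) (by
    rintro (j | _)
    · simp only [Sum.elim_inl, sub_self, totalDegree_zero]
      exact he j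
    · simp only [Sum.elim_inr, sub_sub_cancel_left, totalDegree_neg, totalDegree_one]
      exact hg) S fun z hz => by
    have hz' := hS hz
    rintro (j | _)
    · exact hz'.1 j
    · simp [hz'.2]
  omega

/-- **A linear form avoiding finitely many points.** -/
theorem exists_form_avoiding {W : Set (Fin n → ℂ)} (hW : W.Finite) :
    ∃ t : ℕ, ∀ w ∈ W, w ≠ 0 → ∑ l : Fin n, (((t : ℤ) ^ (l : ℕ) : ℤ) : ℂ) * w l ≠ 0 := by
  classical
  obtain ⟨Q, hQ⟩ : ∃ Q : (Fin n → ℂ) → Polynomial ℂ,
      Q = fun w => ∑ l : Fin n, Polynomial.C (w l) * Polynomial.X ^ (l : ℕ) := ⟨_, rfl⟩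
  obtain ⟨R, hR⟩ : ∃ R : Finset ℂ,
      R = (hW.toFinset.filter fun w => w ≠ 0).biUnion fun w => (Q w).roots.toFinset := ⟨_, rfl⟩
  obtain ⟨t, -, ht⟩ := Set.infinite_univ.exists_notMem_finset
    (R.preimage (fun t : ℕ => (t : ℂ)) Nat.cast_injective.injOn)
  refine ⟨t, fun w hw hw0 heq => ht ?_⟩
  rw [mem_preimage, hR, mem_biUnion]
  refine ⟨w, mem_filter.2 ⟨hW.mem_toFinset.2 hw, hw0⟩,
    Multiset.mem_toFinset.2 ((Polynomial.mem_roots ?_).2 ?_)⟩
  · intro hQ0
    refine hw0 (funext fun l => ?_)
    have h := congrArg (fun P : Polynomial ℂ => P.coeff (l : ℕ)) hQ0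
    simp only [hQ, Polynomial.finsetSum_coeff, Polynomial.coeff_C_mul_X_pow,
      Polynomial.coeff_zero] at h
    rw [sum_eq_single l (fun m _ hm => if_neg fun e => hm (Fin.ext e.symm))
      (fun h' => absurd (mem_univ l) h'), if_pos rfl] at h
    exact h
  · simp only [hQ, Polynomial.IsRoot.def, Polynomial.eval_finsetSum, Polynomial.eval_mul,
      Polynomial.eval_C, Polynomial.eval_pow, Polynomial.eval_X]
    push_cast at heq
    exact (sum_congr rfl fun l _ => mul_comm _ _).trans heq

/-- An integer linear form, as a complex polynomial. -/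
def intLinearForm (a : Fin n → ℤ) : MvPolynomial (Fin n) ℂ := ∑ l, C (a l : ℂ) * X l

theorem intLinearForm_isHomogeneous (a : Fin n → ℤ) : (intLinearForm a).IsHomogeneous 1 :=
  IsHomogeneous.sum _ _ _ fun l _ => isHomogeneous_C_mul_X _ l

theorem eval_intLinearForm (a : Fin n → ℤ) (z : Fin n → ℂ) :
    eval z (intLinearForm a) = ∑ l, (a l : ℂ) * z l := by
  simp [intLinearForm]

/-- **`r` forms can be replaced by `r` integer linear forms.** -/
theorem exists_linear_cut {g : ℕ} (hg : 1 ≤ g) :
    ∀ (r : ℕ) {J : Type} [Fintype J] (I : J → MvPolynomial (Fin n) ℂ) (e : J → ℕ),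
      (∀ j, (I j).IsHomogeneous (e j)) → (∀ j, 1 ≤ e j) →
      ∀ G : Fin r → MvPolynomial (Fin n) ℂ, (∀ i, (G i).IsHomogeneous g) →
      (∀ z, (∀ j, eval z (I j) = 0) → (∀ i, eval z (G i) = 0) → z = 0) →
      ∃ ℓ : Fin r → Fin n → ℤ, ∀ z, (∀ j, eval z (I j) = 0) →
        (∀ a, ∑ l, (ℓ a l : ℂ) * z l = 0) → z = 0 := by
  intro r
  induction r with
  | zero => exact fun I e _ _ G _ h0 => ⟨fun a => a.elim0, fun z hz _ => h0 z hz fun i => i.elim0⟩
  | succ r ih =>
    intro J _ I e hI he G hG h0
    have hfin := finite_normalised_zeros (I := Sum.elim I fun i : Fin r => G i.succ)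
      (e := Sum.elim e fun _ => g) (by rintro (j | i) <;> simp [hI, hG])
      (by rintro (j | i) <;> simp [he, hg]) (hG 0) hg fun z hz hz0 =>
        h0 z (fun j => hz (.inl j)) (Fin.cases hz0 fun i => hz (.inr i))
    obtain ⟨t, ht⟩ := exists_form_avoiding hfin
    obtain ⟨a, ha⟩ : ∃ a : Fin n → ℤ, a = fun l : Fin n => (t : ℤ) ^ (l : ℕ) := ⟨_, rfl⟩
    obtain ⟨ℓ, hℓ⟩ := ih (Sum.elim I fun _ : Unit => intLinearForm a) (Sum.elim e fun _ => 1)
      (by rintro (j | _) <;> simp [hI, intLinearForm_isHomogeneous])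
      (by rintro (j | _) <;> simp [he]) (fun i => G i.succ) (fun i => hG _) fun z hzI hzG => by
        have hl : eval z (intLinearForm a) = 0 := hzI (.inr ())
        by_contra hz0
        have hG0 : eval z (G 0) ≠ 0 := fun h =>
          hz0 (h0 z (fun j => hzI (.inl j)) (Fin.cases h hzG))
        obtain ⟨s, hs⟩ := IsAlgClosed.exists_pow_nat_eq (eval z (G 0))⁻¹ hg
        have hs0 : s ≠ 0 := fun h => by
          rw [h, zero_pow (by omega)] at hs
          exact inv_ne_zero hG0 hs.symm
        have hscale : ∀ {P : MvPolynomial (Fin n) ℂ} {d : ℕ}, P.IsHomogeneous d →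
            eval (s • z) P = s ^ d * eval z P := fun {P d} hP => by
          rw [eval_eq, eval_eq, mul_sum]
          refine sum_congr rfl fun u hu => ?_
          simp only [Pi.smul_apply, smul_eq_mul, mul_pow, prod_mul_distrib, prod_pow_eq_pow_sum]
          rw [← hP.degree_eq_sum_deg_support hu]
          ring
        refine ht (s • z) ⟨?_, by rw [hscale (hG 0), hs, inv_mul_cancel₀ hG0]⟩
          (smul_ne_zero hs0 hz0) ?_
        · rintro (j | i)
          · rw [Sum.elim_inl, hscale (hI j), show eval z (I j) = 0 from hzI (.inl j), mul_zero]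
          · rw [Sum.elim_inr, hscale (hG _), hzG, mul_zero]
        · rw [eval_intLinearForm, ha] at hl
          simp only [Pi.smul_apply, smul_eq_mul, mul_left_comm _ s, ← mul_sum]
          rw [hl, mul_zero]
    refine ⟨Fin.cons a ℓ, fun z hzI hzl => hℓ z ?_ fun b => by simpa using hzl b.succ⟩
    rintro (j | _)
    · exact hzI j
    · simpa [eval_intLinearForm] using hzl 0

/-- **Smoothness bounds the Jacobian locus.** -/
theorem systemSingularDimLE_of_smooth {r m : ℕ} {F : Fin r → MvPolynomial (Fin n) ℤ} (hr : 0 < r)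
    (hF : ∀ i, (F i).IsHomogeneous (m + 2)) (hsm : SmoothCommonZeros F) :
    SystemSingularDimLE F r := by
  classical
  obtain ⟨M, hM⟩ : ∃ M : (Fin r → Fin n) → MvPolynomial (Fin n) ℤ,
      M = fun f => (Matrix.of fun i a => pderiv (f a) (F i)).det := ⟨_, rfl⟩
  have hMhom : ∀ f, (M f).IsHomogeneous (∑ _a : Fin r, (m + 1)) := fun f => by
    rw [hM]
    simp only [Matrix.det_apply', Matrix.of_apply]
    refine IsHomogeneous.sum _ _ _ fun σ _ => ?_
    rw [← map_intCast (C : ℤ →+* MvPolynomial (Fin n) ℤ)]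
    simpa using (isHomogeneous_C (Fin n) _).mul
      (IsHomogeneous.prod univ _ _ fun a _ => isHomogeneous_pderiv _ (hF (σ a)) (f a))
  have hval : ∀ (P : MvPolynomial (Fin n) ℤ) (z : Fin n → ℂ),
      eval z (map (Int.castRingHom ℂ) P) = aeval z P := fun P z => by
    rw [eval_map, ← algebraMap_int_eq, ← aeval_def]
  obtain ⟨ℓ, hℓ⟩ := exists_linear_cut (show 1 ≤ m + 2 by omega) r
    (fun f => map (Int.castRingHom ℂ) (M f)) (fun _ => ∑ _a : Fin r, (m + 1))
    (fun f => (hMhom f).map _) (fun _ => by simpa using Nat.mul_pos hr (Nat.succ_pos m)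
      |> Nat.succ_le_of_lt)
    (fun i => map (Int.castRingHom ℂ) (F i)) (fun i => (hF i).map _) fun z hzM hzF => by
      by_contra hz0
      obtain ⟨f, hf⟩ := exists_minor_ne_zero (hsm z (fun i => (hval _ _).symm.trans (hzF i)) hz0)
      have h := hzM f
      rw [hval, hM, aeval_det_pderiv] at h
      exact hf h
  refine ⟨ℓ, fun z hdep hzl => hℓ z (fun f => ?_) hzl⟩
  rw [hval, hM, aeval_det_pderiv]
  exact by_contra fun hf => hdep (independent_of_jacMinor_ne_zero F hf)

end FA.SmoothIntersections
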