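import Fermat.Agent.SmoothIntersections.Count
import Fermat.Agent.SmoothIntersections.Cut

/-!
# Birch's theorem for smooth complete intersections

If the Jacobian of `r` forms of degree `d` has rank `r` at every complex common zero but the
origin and `n > r + r (r + 1) (d - 1) 2 ^ (d - 1)`, the Hasse principle holds, and with local
zeros the primitive integer zeros of size `P` number `c P ^ (n - r d) + O (P ^ (n - r d - δ))`.
-/

set_option autoImplicit false

noncomputable section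

namespace FA.SmoothIntersections

open Finset MvPolynomial FA.FormSystems

variable {n r m : ℕ} (F : Fin r → MvPolynomial (Fin n) ℤ)

theorem two_le_expected_dim (hn : r + r * (r + 1) * (m + 1) * 2 ^ (m + 1) < n) :
    2 ≤ n - r * (m + 2) ∨ r = 0 := by
  rcases Nat.eq_zero_or_pos r with h | h
  · exact Or.inr h
  have h1 : r * (m + 2) ≤ r * (r + 1) * (m + 1) * 2 ^ (m + 1) := by
    refine le_trans ?_ (Nat.le_mul_of_pos_right _ (by positivity))
    rw [mul_assoc]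
    exact Nat.mul_le_mul_left r (by nlinarith)
  omega

/-- **The Hasse principle for smooth intersections.** -/
theorem hasse_principle_smooth (hr : 0 < r) (hF : ∀ i, (F i).IsHomogeneous (m + 2))
    (hsm : SmoothCommonZeros F) (hn : r + r * (r + 1) * (m + 1) * 2 ^ (m + 1) < n) :
    (∃ x : Fin n → ℤ, x ≠ 0 ∧ ∀ i, eval x (F i) = 0) ↔
      (∃ z : Fin n → ℝ, z ≠ 0 ∧ ∀ i, aeval z (F i) = 0) ∧
        ∀ (p : ℕ) [Fact p.Prime], ∃ z : Fin n → ℚ_[p], z ≠ 0 ∧ ∀ i, aeval z (F i) = 0 :=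
  hasse_principle_systems F hr hF (systemSingularDimLE_of_smooth hr hF hsm) hsm hn

/-- **The number of zeros**, all and primitive. -/
theorem exists_smooth_count (hr : 0 < r) (hF : ∀ i, (F i).IsHomogeneous (m + 2))
    (hsm : SmoothCommonZeros F) (hn : r + r * (r + 1) * (m + 1) * 2 ^ (m + 1) < n)
    (hreal : ∃ z : Fin n → ℝ, z ≠ 0 ∧ ∀ i, aeval z (F i) = 0)
    (hpadic : ∀ (p : ℕ) [Fact p.Prime], ∃ z : Fin n → ℚ_[p], z ≠ 0 ∧ ∀ i, aeval z (F i) = 0) :
    (∃ c δ C : ℝ, 0 < c ∧ 0 < δ ∧ ∀ P : ℕ, 1 ≤ P →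
      |(countSysReps F 0 P : ℝ) - c * (P : ℝ) ^ (n - r * (m + 2))| ≤
        C * (P : ℝ) ^ (((n - r * (m + 2) : ℕ) : ℝ) - δ)) ∧
    ∃ c δ C : ℝ, 0 < c ∧ 0 < δ ∧ ∀ P : ℕ, 1 ≤ P →
      |(countPrimitiveZeros F P : ℝ) - c * (P : ℝ) ^ (n - r * (m + 2))| ≤
        C * (P : ℝ) ^ (((n - r * (m + 2) : ℕ) : ℝ) - δ) := by
  obtain ⟨z, hz0, hz⟩ := hreal
  obtain ⟨c, δ, C, hc, hδ, h⟩ := exists_sys_asymptotic_pos F hr hF
    (systemSingularDimLE_of_smooth hr hF hsm) hn ⟨z, hz, hsm.independent F hF hz hz0⟩ fun p _ => by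
      obtain ⟨w, hw0, hw⟩ := hpadic p
      exact ⟨w, hw, hsm.independent F hF hw hw0⟩
  exact ⟨⟨c, δ, C, hc, hδ, h⟩, exists_primitive_asymptotic F hF
    ((two_le_expected_dim hn).resolve_right hr.ne') hc hδ h⟩

end FA.SmoothIntersections
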