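import Fermat.Agent.BrauerForms.Induction
import Fermat.Agent.DavenportLewis.Padic

/-!
# Brauer's theorem uniformly in `p`

A product of fields over `ℕ`, divided by a maximal ideal containing the finitely supported
elements, is one field, with zeros of diagonal forms in as many variables as all factors have. Its
bound in Brauer's theorem serves for infinitely many factors, so with the bound `d ^ 2 + 1` of
Davenport and Lewis systems of forms over `ℚ_p` have zeros in a number of variables independent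
of `p`.
-/

set_option autoImplicit false

noncomputable section

namespace FA.SmoothIntersections

open Finset MvPolynomial Fermat.Agent.BrauerForms

section Family

variable (K : ℕ → Type) [∀ N, Field (K N)]

/-- The eventually vanishing sequences. -/
def eventuallyZero : Ideal (∀ N, K N) where
  carrier := {a | ∃ L, ∀ N, L ≤ N → a N = 0}
  add_mem' := fun {a b} ⟨L, ha⟩ ⟨L', hb⟩ => ⟨max L L', fun N hN => by
    rw [Pi.add_apply, ha N ((le_max_left _ _).trans hN), hb N ((le_max_right _ _).trans hN),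
      add_zero]⟩
  zero_mem' := ⟨0, fun _ _ => rfl⟩
  smul_mem' := fun c {a} ⟨L, ha⟩ => ⟨L, fun N hN => by
    rw [Pi.smul_apply', smul_eq_mul, ha N hN, mul_zero]⟩

theorem eventuallyZero_ne_top : eventuallyZero K ≠ ⊤ := fun h => by
  obtain ⟨L, hL⟩ := h ▸ Submodule.mem_top (x := (1 : ∀ N, K N))
  exact one_ne_zero (hL L le_rfl)

open Classical in
/-- The indicator of a predicate. -/
def ind (P : ℕ → Prop) : ∀ N, K N := fun N => if P N then 1 else 0

theorem exists_ind_notMem {M : Ideal (∀ N, K N)} (hM : M.IsPrime) {α : Type*} [Fintype α]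
    (σ : ℕ → α) : ∃ j, ind K (fun N => σ N = j) ∉ M := by
  classical
  by_contra h
  push Not at h
  refine hM.ne_top ((Ideal.eq_top_iff_one M).2 ?_)
  have e : (1 : ∀ N, K N) = ∑ j, ind K fun N => σ N = j := _root_.funext fun N => by
    simp [ind, Finset.sum_apply]
  rw [e]
  exact sum_mem fun j _ => h j

/-- **Brauer's bound for a family of fields.** -/
theorem exists_family_bound (h : ℕ → ℕ) (hdiag : ∀ d, 2 ≤ d → ∀ n, h d ≤ n → ∀ N,
    ∀ a : Fin n → K N, ∃ x : Fin n → K N, x ≠ 0 ∧ ∑ i, a i * x i ^ d = 0) (D r : ℕ) :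
    ∃ n₀, ∀ (deg : ℕ → Fin r → ℕ) (g : ∀ N, Fin r → MvPolynomial (Fin n₀) (K N)),
      (∀ N i, (g N i).IsHomogeneous (deg N i) ∧ 1 ≤ deg N i ∧ deg N i ≤ D) →
        ∃ N, n₀ ≤ N ∧ ∃ x : Fin n₀ → K N, x ≠ 0 ∧ ∀ i, eval x (g N i) = 0 := by
  classical
  obtain ⟨M, hM, hle⟩ := (eventuallyZero K).exists_le_maximal (eventuallyZero_ne_top K)
  have := hM
  let : Field ((∀ N, K N) ⧸ M) := Ideal.Quotient.field M
  have hquot : ∀ d, 2 ≤ d → DiagonalZeros ((∀ N, K N) ⧸ M) d := fun d hd =>
    ⟨max 1 (h d), fun n hn a => by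
      choose A hA using fun i => Ideal.Quotient.mk_surjective (a i)
      choose x hx0 hxz using fun N => hdiag d hd n ((le_max_right _ _).trans hn) N fun i => A i N
      choose σ hσ using fun N => Function.ne_iff.1 (hx0 N)
      obtain ⟨X, hX⟩ : ∃ X : Fin n → ∀ N, K N, X = fun i N => x N i / x N (σ N) := ⟨_, rfl⟩
      obtain ⟨j, hj⟩ := exists_ind_notMem K hM.isPrime σ
      refine ⟨fun i => Ideal.Quotient.mk M (X i), fun h0 => hj ?_, ?_⟩
      · have h1 : X j ∈ M := Ideal.Quotient.eq_zero_iff_mem.1 (congrFun h0 j)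
        have e : ind K (fun N => σ N = j) = ind K (fun N => σ N = j) * X j :=
          _root_.funext fun N => by
            rcases eq_or_ne (σ N) j with e | e
            · subst e
              simp only [ind, Pi.mul_apply, hX]
              rw [div_self (hσ N), mul_one]
            · simp [ind, e]
        rw [e]
        exact M.mul_mem_left _ h1
      · simp only [← hA, ← map_pow, ← map_mul, ← map_sum]
        have e : ∑ i, A i * X i ^ d = 0 := _root_.funext fun N => by
          simp only [Finset.sum_apply, Pi.mul_apply, Pi.pow_apply, Pi.zero_apply, hX, div_pow,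
            mul_div_assoc']
          rw [← sum_div, hxz N, zero_div]
        rw [e, map_zero]⟩
  obtain ⟨n₀, hn₀⟩ := subspaceZeros_of_diagonal hquot D r 1
  refine ⟨n₀, fun deg g hg => ?_⟩
  obtain ⟨δ, hδ⟩ : ∃ δ : Fin r → Fin (D + 1), ind K (fun N => (fun i =>
      (⟨deg N i, Nat.lt_succ_of_le (hg N i).2.2⟩ : Fin (D + 1))) = δ) ∉ M :=
    exists_ind_notMem K hM.isPrime _
  obtain ⟨good, hgood⟩ : ∃ good : ℕ → Prop, good = fun N => ∀ i, deg N i = (δ i : ℕ) := ⟨_, rfl⟩
  have hgood' : ind K good ∉ M := by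
    refine fun h' => hδ ?_
    convert h' using 1
    refine congrArg (ind K) (_root_.funext fun N => propext ?_)
    simp [hgood, _root_.funext_iff, Fin.ext_iff]
  obtain ⟨G, hG⟩ : ∃ G : Fin r → MvPolynomial (Fin n₀) (∀ N, K N), G = fun i =>
      ∑ e ∈ finsuppAntidiag (univ : Finset (Fin n₀)) (δ i : ℕ),
        monomial e fun N => if good N then coeff e (g N i) else 0 := ⟨_, rfl⟩
  have hGhom : ∀ i, (G i).IsHomogeneous (δ i) := fun i => by
    rw [hG]
    refine IsHomogeneous.sum _ _ _ fun e he => isHomogeneous_monomial _ ?_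
    rw [Finsupp.degree_eq_sum]
    exact (mem_finsuppAntidiag.1 he).1
  have hGN : ∀ N i, good N → MvPolynomial.map (Pi.evalRingHom K N) (G i) = g N i := fun N i hN => by
    refine Eq.trans ?_ (g N i).as_sum.symm
    rw [hG, map_sum]
    simp only [map_monomial, Pi.evalRingHom_apply, if_pos hN]
    refine (sum_subset (fun e he => mem_finsuppAntidiag.2 ⟨?_, subset_univ _⟩)
      fun e _ he => ?_).symm
    · rw [hgood] at hN
      rw [← hN i, (hg N i).1.degree_eq_sum_deg_support he]
      exact (sum_subset (subset_univ _) fun l _ hl => Finsupp.notMem_support_iff.1 hl).symm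
    · rw [notMem_support_iff.1 he, monomial_zero]
  have hδ1 : ∀ i, 1 ≤ (δ i : ℕ) := fun i => by
    by_contra hlt
    refine hgood' ?_
    have e : ind K good = 0 := _root_.funext fun N => if_neg fun hN => hlt <| by
      rw [hgood] at hN
      have := (hg N i).2.1
      rwa [hN i] at this
    rw [e]
    exact M.zero_mem
  obtain ⟨v, hv, hvz⟩ := hn₀ n₀ le_rfl (fun i => MvPolynomial.map (Ideal.Quotient.mk M) (G i))
    (fun i => (δ i : ℕ)) fun i => ⟨(hGhom i).map _, hδ1 i, Nat.le_of_lt_succ (δ i).2⟩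
  choose Y hY using fun l => Ideal.Quotient.mk_surjective (v 0 l)
  obtain ⟨j, hj⟩ := Function.ne_iff.1 (hv.ne_zero 0)
  have hYG : ∀ i, eval Y (G i) ∈ M := fun i => by
    rw [← Ideal.Quotient.eq_zero_iff_mem]
    have h1 := hvz i fun _ => 1
    simp only [Fin.sum_univ_one, one_smul] at h1
    rw [← _root_.funext hY, eval_map] at h1
    rw [← h1, eval₂_comp]
    rfl
  have hYj : Y j ∉ M := fun h' => hj (by
    rw [← hY j, Ideal.Quotient.eq_zero_iff_mem.2 h', Pi.zero_apply])
  have hzero : ∀ i, ind K (fun N => eval Y (G i) N = 0) ∉ M := fun i h' => hM.ne_top <| by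
    refine (Ideal.eq_top_iff_one M).2 ?_
    have e : (1 : ∀ N, K N) = ind K (fun N => eval Y (G i) N = 0) +
        eval Y (G i) * fun N => (eval Y (G i) N)⁻¹ := _root_.funext fun N => by
      by_cases h0 : eval Y (G i) N = 0 <;> simp [ind, h0]
    rw [e]
    exact M.add_mem h' (M.mul_mem_right _ (hYG i))
  have hYne : ind K (fun N => Y j N ≠ 0) ∉ M := fun h' => hYj <| by
    have e : Y j = ind K (fun N => Y j N ≠ 0) * Y j := _root_.funext fun N => by
      by_cases h0 : Y j N = 0 <;> simp [ind, h0]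
    rw [e]
    exact M.mul_mem_right _ h'
  have htail : ind K (fun N => n₀ ≤ N) ∉ M := fun h' => hM.ne_top <| by
    refine (Ideal.eq_top_iff_one M).2 ?_
    have hlow : ind K (fun N => N < n₀) ∈ M := hle ⟨n₀, fun N hN => if_neg (not_lt.2 hN)⟩
    have e : (1 : ∀ N, K N) = ind K (fun N => n₀ ≤ N) + ind K fun N => N < n₀ :=
      _root_.funext fun N => by by_cases h0 : n₀ ≤ N <;> simp [ind, h0]
    rw [e]
    exact M.add_mem h' hlow
  obtain ⟨W, hW⟩ : ∃ W : ∀ N, K N, W = ind K good * ind K (fun N => n₀ ≤ N) *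
      ind K (fun N => Y j N ≠ 0) * ∏ i, ind K fun N => eval Y (G i) N = 0 := ⟨_, rfl⟩
  have hWM : W ∉ M := by
    rw [hW]
    refine fun h' => ((hM.isPrime.mem_or_mem h').elim (fun h1 => ?_) fun h1 => ?_)
    · rcases hM.isPrime.mem_or_mem h1 with h2 | h2
      · exact (hM.isPrime.mem_or_mem h2).elim hgood' htail
      · exact hYne h2
    · obtain ⟨i, -, hi⟩ := hM.isPrime.prod_mem_iff.1 h1
      exact hzero i hi
  obtain ⟨N, hN⟩ := Function.ne_iff.1 fun e : W = 0 => hWM (e ▸ M.zero_mem)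
  rw [hW, Pi.zero_apply] at hN
  simp only [Pi.mul_apply, Finset.prod_apply, mul_ne_zero_iff, prod_ne_zero_iff, ind, ne_eq,
    ite_eq_right_iff, one_ne_zero, imp_false, not_not] at hN
  obtain ⟨⟨⟨hN1, hN2⟩, hN3⟩, hN4⟩ := hN
  refine ⟨N, hN2, fun l => Y l N, fun h0 => hN3 (congrFun h0 j), fun i => ?_⟩
  rw [← hGN N i hN1, eval_map, ← hN4 i (mem_univ i)]
  exact (eval₂_comp (Pi.evalRingHom K N) Y (G i)).symm

end Family

/-- **Brauer's theorem uniformly in `p`.** -/
theorem exists_uniform_padic_zero (D r : ℕ) :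
    ∃ n₀, ∀ (p : ℕ) [Fact p.Prime], ∀ n, n₀ ≤ n → ∀ (f : Fin r → MvPolynomial (Fin n) ℚ_[p])
      (deg : Fin r → ℕ), (∀ i, (f i).IsHomogeneous (deg i) ∧ 1 ≤ deg i ∧ deg i ≤ D) →
        ∃ x : Fin n → ℚ_[p], x ≠ 0 ∧ ∀ i, eval x (f i) = 0 := by
  by_contra hcon
  push Not at hcon
  choose p hp n hn f deg hf hbad using hcon
  have : ∀ N, Fact (p N).Prime := hp
  obtain ⟨n₀, hn₀⟩ := exists_family_bound (fun N => ℚ_[p N]) (fun d => d * d + 1)
    (fun d hd m hm N a => DavenportLewis.exists_padic_zero_diagonal hd a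
      (by rw [Fintype.card_fin]; omega)) D r
  obtain ⟨v, hv⟩ : ∃ v : ∀ N, Fin n₀ → Fin (n N) → ℚ_[p N],
      v = fun (N : ℕ) (l : Fin n₀) (i : Fin (n N)) =>
        if (i : ℕ) = (l : ℕ) then (1 : ℚ_[p N]) else 0 := ⟨_, rfl⟩
  obtain ⟨N, hN, x, hx, hxz⟩ := hn₀ deg (fun N i => restrictSpan (v N) (f N i))
    fun N i => ⟨isHomogeneous_restrictSpan _ (hf N i).1, (hf N i).2⟩
  obtain ⟨l, hl⟩ := Function.ne_iff.1 hx
  obtain ⟨y, hy⟩ : ∃ y : Fin (n N) → ℚ_[p N], y = ∑ i, x i • v N i := ⟨_, rfl⟩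
  obtain ⟨i, hi⟩ := hbad N y fun h0 => hl <| by
    have hlt : (l : ℕ) < n N := lt_of_lt_of_le l.2 (hN.trans (hn N))
    have h1 := congrFun h0 ⟨l, hlt⟩
    simp only [hy, hv, Finset.sum_apply, Pi.smul_apply, smul_eq_mul, mul_ite, mul_one, mul_zero,
      Pi.zero_apply, Fin.val_inj] at h1
    rw [sum_ite_eq, if_pos (mem_univ l)] at h1
    exact h1
  exact hi (by rw [hy, ← eval_restrictSpan]; exact hxz i)

end FA.SmoothIntersections
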