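import Fermat.Agent.BorsukUlam.Sphere
import Fermat.Agent.SmoothIntersections.Main
import Fermat.Agent.SmoothIntersections.Uniform

/-!
# Smooth intersections in many variables and their real points

Zeros over every `ℚ_p` are automatic in enough variables, so a smooth intersection in enough
variables has a rational point if and only if it has a real point, and for odd degree always, a
real zero being given by the theorem of Borsuk and Ulam.
-/

set_option autoImplicit false

noncomputable section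

namespace FA.SmoothIntersections

open Finset MvPolynomial FA.FormsManyVariables FA.FormSystems

variable {r : ℕ}

/-- Integral forms have zeros over every `ℚ_p` in enough variables. -/
theorem exists_all_padic_zeros (r d : ℕ) (hd : 1 ≤ d) :
    ∃ n₀, ∀ n, n₀ ≤ n → ∀ F : Fin r → MvPolynomial (Fin n) ℤ, (∀ i, (F i).IsHomogeneous d) →
      ∀ (p : ℕ) [Fact p.Prime], ∃ z : Fin n → ℚ_[p], z ≠ 0 ∧ ∀ i, aeval z (F i) = 0 := by
  obtain ⟨n₀, h⟩ := exists_uniform_padic_zero d r
  refine ⟨n₀, fun n hn F hF p _ => ?_⟩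
  obtain ⟨z, hz0, hz⟩ := h p n hn (fun i => map (Int.castRingHom ℚ_[p]) (F i)) (fun _ => d)
    fun i => ⟨(hF i).map _, hd, le_rfl⟩
  exact ⟨z, hz0, fun i => by
    rw [aeval_def, algebraMap_int_eq, ← eval_map]
    exact hz i⟩

/-- **A real zero of forms of odd degree**, fewer than the variables. -/
theorem exists_real_zero_odd_system {n d : ℕ} (hd : Odd d) (hrn : r < n)
    (F : Fin r → MvPolynomial (Fin n) ℤ) (hF : ∀ i, (F i).IsHomogeneous d) :
    ∃ z : Fin n → ℝ, z ≠ 0 ∧ ∀ i, aeval z (F i) = 0 := by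
  obtain ⟨z, hz, h⟩ := Fermat.Agent.BorsukUlam.borsuk_ulam (V := Fin n → ℝ) (W := Fin r → ℝ)
    (by simpa using hrn) (f := fun z i => aeval z (F i))
    (continuous_pi fun i => continuous_aeval_form (F i)).continuousOn
  refine ⟨z, fun h0 => ?_, fun i => ?_⟩
  · rw [mem_sphere_zero_iff_norm, h0, norm_zero] at hz
    exact zero_ne_one hz
  · have h1 : aeval z (F i) = aeval (-z) (F i) := congrFun h i
    rw [← neg_one_smul ℝ z, aeval_smul (F i) (hF i), hd.neg_one_pow] at h1
    linarith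

/-- **A rational point exactly when there is a real point.** -/
theorem exists_bound_real_points (m : ℕ) (hr : 0 < r) :
    ∃ n₀, ∀ n, n₀ ≤ n → ∀ F : Fin r → MvPolynomial (Fin n) ℤ,
      (∀ i, (F i).IsHomogeneous (m + 2)) → SmoothCommonZeros F →
        ((∃ x : Fin n → ℤ, x ≠ 0 ∧ ∀ i, eval x (F i) = 0) ↔
          ∃ z : Fin n → ℝ, z ≠ 0 ∧ ∀ i, aeval z (F i) = 0) := by
  obtain ⟨n₁, h⟩ := exists_all_padic_zeros r (m + 2) (by omega)
  refine ⟨max n₁ (r + r * (r + 1) * (m + 1) * 2 ^ (m + 1) + 1), fun n hn F hF hsm => ?_⟩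
  rw [hasse_principle_smooth F hr hF hsm (Nat.lt_of_succ_le ((le_max_right _ _).trans hn))]
  exact and_iff_left (h n ((le_max_left _ _).trans hn) F hF)

/-- **Odd degree**: no local condition is left. -/
theorem exists_bound_odd_degree {d : ℕ} (hd : Odd d) (hd3 : 3 ≤ d) (hr : 0 < r) :
    ∃ n₀, ∀ n, n₀ ≤ n → ∀ F : Fin r → MvPolynomial (Fin n) ℤ,
      (∀ i, (F i).IsHomogeneous d) → SmoothCommonZeros F →
        (∃ c δ C : ℝ, 0 < c ∧ 0 < δ ∧ ∀ P : ℕ, 1 ≤ P →
          |(countSysReps F 0 P : ℝ) - c * (P : ℝ) ^ (n - r * d)| ≤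
            C * (P : ℝ) ^ (((n - r * d : ℕ) : ℝ) - δ)) ∧
        ∃ c δ C : ℝ, 0 < c ∧ 0 < δ ∧ ∀ P : ℕ, 1 ≤ P →
          |(countPrimitiveZeros F P : ℝ) - c * (P : ℝ) ^ (n - r * d)| ≤
            C * (P : ℝ) ^ (((n - r * d : ℕ) : ℝ) - δ) := by
  obtain ⟨m, rfl⟩ : ∃ m, d = m + 2 := ⟨d - 2, by omega⟩
  obtain ⟨n₁, h⟩ := exists_all_padic_zeros r (m + 2) (by omega)
  refine ⟨max n₁ (r + r * (r + 1) * (m + 1) * 2 ^ (m + 1) + 1), fun n hn F hF hsm => ?_⟩
  have hn' : r + r * (r + 1) * (m + 1) * 2 ^ (m + 1) < n :=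
    Nat.lt_of_succ_le ((le_max_right _ _).trans hn)
  exact exists_smooth_count F hr hF hsm hn'
    (exists_real_zero_odd_system hd (lt_of_le_of_lt (Nat.le_add_right _ _) hn') F hF)
    (h n ((le_max_left _ _).trans hn) F hF)

end FA.SmoothIntersections
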